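import Mathlib
import Fermat.Agent.MUL.Lib.BadRed.Mod.GaussSetup
import Fermat.Agent.MUL.Lib.BadRed.Mod.ALDegeneracy
import Fermat.Agent.MUL.Lib.BadRed.Mod.ValZero
import Fermat.Agent.MUL.Lib.BadRed.Mod.ValInf
import Fermat.Agent.MUL.Lib.BadRed.Mod.SeedNodeC
import Fermat.Agent.MUL.Orig.Lib.Kronecker.Formal
import Fermat.Agent.MUL.Orig.Lib.BadRed.Mod.FrobAut
import Fermat.Agent.MUL.Lib.GaussInt.ModularInst
import Fermat.Agent.MUL.S17.Pts.Galois
import Fermat.Agent.MUL.S24.GlobalDatum
import Fermat.Agent.MUL.Lib.BadRed.Final.Nodal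
import Fermat.Agent.MUL.Lib.BadRed.Mod.AuxUnified
import Fermat.Agent.MUL.Lib.BadRed.Mod.UCuspDegFinal
import Fermat.Agent.MUL.Lib.GaussInt.FrobPowAsm

section MergeWrap_Lib_BadRed_Mod_OldRed -- from Lib/BadRed/Mod/OldRed.lean

set_option autoImplicit false
set_option linter.style.haveILetI false
set_option linter.unusedSectionVars false
set_option linter.unusedVariables false
set_option synthInstance.maxHeartbeats 400000

/-!
# Cluster T, modular assembly, leaf MA6b: reduction of OLD functions  (helper33)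

`D : ALData`, `q = D.Q` prime, `N₀ = D.R`, `q ∤ N₀`, `N = q N₀`, `A` a place of `ℚ̄` over `q`,
`k = A / 𝔪`, `Fk = modularFunctionFieldFullC k N₀`.
`S₀ = GaussInt.modularValSetup A q N₀` (good reduction at level `N₀`),
`S` any constant reduction of `F_N` with `IsGaussSetup N N₀ A S` (`= v_∞`), `S₂ = valSetupZero D S`
(`= v_0 = v_∞ ∘ w_q`).  For an OLD function `g = alphaQ D g₀`, `g₀ ∈ S₀.Ov`:

* `alphaQ_mem_Ov`, `red_alphaQ`           : `g ∈ S.Ov`, `S.red g = S₀.red g₀`;
* `alphaQ_mem_Ov_zero`, `coe_red_zero_alphaQ`, `red_zero_alphaQ_eq_pow` :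
    `g ∈ S₂.Ov`, `S₂.red g = (S₀.red g₀)(t^q) = (Frob⁻¹ (S₀.red g₀)) ^ q`;
* `valAt_red_zero_alphaQ`                 : value transport by the coefficientwise Frobenius:
    `ValAt Q (S₂.red g) c ↔ ValAt (frobAut • Q) (S₀.red g₀) c`;
* `ord_alphaQ_nonneg`                     : if `g₀` has poles only at the poles of `j` (cusps of
    `X₀(N₀)`), then `g` has poles only at the poles of `j` (cusps of `X₀(N)`).
Abstract tools: `isPres_qExpand`, `qExpand_mem_gaussSub`, `gaussResFun_qExpand`, `valAt_pow_char`,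
`valAt_inv_smul_pow`.   Sorry-free.
-/

noncomputable section

namespace Fermat.Agent.BadRed

open ModularCurve AlgebraicCurve Fermat.Agent.GaussInt Fermat.Agent.AtkinLehner
  Fermat.Agent.Deuring Fermat.Agent.S24

local notation "Qb" => AlgebraicClosure ℚ

/-! ### `qExpand` and presentations -/

section QExp

variable {K : Type*} [Field K] {A : ValuationSubring K}
  {F F' : IntermediateField K (LaurentSeries K)}

theorem isPres_qExpand (n : ℕ) [NeZero n] (hFF : ∀ x ∈ F, qExpand K n x ∈ F')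
    {f : LaurentSeries K} {Y₁ Y₂ : LaurentSeries A} (h : IsPres A F f Y₁ Y₂) :
    IsPres A F' (qExpand K n f) (qExpand A n Y₁) (qExpand A n Y₂) where
  mem₁ := by
    rw [ModularCurve.coeffMap_qExpand]
    exact hFF _ h.mem₁
  mem₂ := by
    rw [ModularCurve.coeffMap_qExpand]
    exact hFF _ h.mem₂
  prim := by
    rw [ModularCurve.coeffMap_qExpand]
    intro h0
    apply h.prim
    apply qExpand_injective (R := IsLocalRing.ResidueField A) n
    rw [h0, map_zero]
  eq := by
    rw [ModularCurve.coeffMap_qExpand, ModularCurve.coeffMap_qExpand, ← map_mul, h.eq]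

theorem qExpand_mem_gaussSub (n : ℕ) [NeZero n] (hFF : ∀ x ∈ F, qExpand K n x ∈ F')
    {f : LaurentSeries K} (hf : f ∈ gaussSub A F) : qExpand K n f ∈ gaussSub A F' := by
  obtain ⟨Y₁, Y₂, h⟩ := hf
  exact ⟨_, _, isPres_qExpand n hFF h⟩

theorem gaussResFun_qExpand (n : ℕ) [NeZero n] (hFF : ∀ x ∈ F, qExpand K n x ∈ F')
    {f : LaurentSeries K} (hf : f ∈ gaussSub A F) :
    gaussResFun A F' (qExpand K n f) =
      qExpand (IsLocalRing.ResidueField A) n (gaussResFun A F f) := by
  obtain ⟨Y₁, Y₂, h⟩ := hf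
  rw [gaussResFun_eq h, gaussResFun_eq (isPres_qExpand n hFF h), map_div₀,
    ModularCurve.coeffMap_qExpand, ModularCurve.coeffMap_qExpand]

end QExp

variable (D : ALData) [NeZero D.Q] [NeZero D.R] [NeZero (D.Q * D.R)]
  (A : ValuationSubring Qb) (hq : D.Q.Prime) (hA : A.LiesOverPrime D.Q) (hqR : ¬ D.Q ∣ D.R)
  (S : ValSetup Qb (modularFunctionFieldBar (D.Q * D.R)) (IsLocalRing.ResidueField A)
    (modularFunctionFieldFullC (IsLocalRing.ResidueField A) D.R))
  (hS : IsGaussSetup (D.Q * D.R) D.R A S)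

include hS in
/-- (1a) an old Gauss-integral function is integral for `v_∞`. -/
theorem alphaQ_mem_Ov (g₀ : modularFunctionFieldBar D.R)
    (hg₀ : g₀ ∈ (modularValSetup A D.Q D.R hq hA hqR).Ov) : alphaQ D g₀ ∈ S.Ov := by
  rw [hS.mem_iff, coe_alphaQ]
  exact gaussSub_mono_field (le_level_mul D)
    ((mem_modularValSetup_Ov_iff A D.Q D.R hq hA hqR g₀).mp hg₀)

include hS in
/-- (1b) its `v_∞`-reduction is the reduction at level `N₀`. -/
theorem red_alphaQ (g₀ : modularFunctionFieldBar D.R)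
    (hg₀ : g₀ ∈ (modularValSetup A D.Q D.R hq hA hqR).Ov) :
    S.red (alphaQ D g₀) = (modularValSetup A D.Q D.R hq hA hqR).red g₀ := by
  have hg₀' := (mem_modularValSetup_Ov_iff A D.Q D.R hq hA hqR g₀).mp hg₀
  apply Subtype.ext
  rw [hS.coe_red _ (alphaQ_mem_Ov D A hq hA hqR S hS g₀ hg₀), coe_alphaQ,
    coe_modularValSetup_red A D.Q D.R hq hA hqR hg₀',
    gaussResFun_eq_of_le (le_level_mul D) hg₀']

include hS in
/-- (2a) an old Gauss-integral function is integral for `v_0`. -/
theorem alphaQ_mem_Ov_zero (g₀ : modularFunctionFieldBar D.R)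
    (hg₀ : g₀ ∈ (modularValSetup A D.Q D.R hq hA hqR).Ov) :
    alphaQ D g₀ ∈ (valSetupZero D S).Ov := by
  rw [mem_valSetupZero_Ov, atkinLehner_alphaQ, hS.mem_iff, coe_betaQ]
  exact qExpand_mem_gaussSub D.Q
    (fun x hx => qExpand_mem_level_mul D ⟨x, hx⟩)
    ((mem_modularValSetup_Ov_iff A D.Q D.R hq hA hqR g₀).mp hg₀)

include hS in
/-- (2b) its `v_0`-reduction is `ḡ₀(t^q)`. -/
theorem coe_red_zero_alphaQ (g₀ : modularFunctionFieldBar D.R)
    (hg₀ : g₀ ∈ (modularValSetup A D.Q D.R hq hA hqR).Ov) :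
    (((valSetupZero D S).red (alphaQ D g₀) :
        modularFunctionFieldFullC (IsLocalRing.ResidueField A) D.R) :
        LaurentSeries (IsLocalRing.ResidueField A)) =
      qExpand (IsLocalRing.ResidueField A) D.Q
        ((((modularValSetup A D.Q D.R hq hA hqR).red g₀ :
          modularFunctionFieldFullC (IsLocalRing.ResidueField A) D.R) :
          LaurentSeries (IsLocalRing.ResidueField A))) := by
  have hg₀' := (mem_modularValSetup_Ov_iff A D.Q D.R hq hA hqR g₀).mp hg₀
  have hmem := alphaQ_mem_Ov_zero D A hq hA hqR S hS g₀ hg₀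
  rw [mem_valSetupZero_Ov] at hmem
  rw [valSetupZero_red, hS.coe_red _ hmem, atkinLehner_alphaQ, coe_betaQ,
    coe_modularValSetup_red A D.Q D.R hq hA hqR hg₀',
    gaussResFun_qExpand D.Q (fun x hx => qExpand_mem_level_mul D ⟨x, hx⟩) hg₀']

/-! ### values of `q`-th powers -/

section Pow

variable {k Fk : Type*} [Field k] [Field Fk] [Algebra k Fk]

theorem valAt_pow_char (q : ℕ) [Fact q.Prime] [CharP k q] (Q : Place k Fk) (f : Fk) (c₀ : k) :
    ValAt Q (f ^ q) (c₀ ^ q) ↔ ValAt Q f c₀ := by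
  haveI : CharP Fk q := charP_of_injective_algebraMap (algebraMap k Fk).injective q
  have hq0 : q ≠ 0 := (Fact.out : q.Prime).ne_zero
  rw [SeedNode.valAt_iff, SeedNode.valAt_iff, map_pow, ← sub_pow_char, map_pow]
  exact pow_lt_one_iff hq0

theorem valAt_iff_congAt (Q : Place k Fk) (f : Fk) (c : k) :
    ValAt Q f c ↔ Fermat.Agent.S17.Pts.CongAt Q f c := Iff.rfl

end Pow


include hS in
/-- (2c) the `v_0`-reduction of an old function is `(Frob⁻¹ ḡ₀)^q`. -/
theorem red_zero_alphaQ_eq_pow [Fact D.Q.Prime] [CharP (IsLocalRing.ResidueField A) D.Q]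
    [PerfectRing (IsLocalRing.ResidueField A) D.Q]
    (g₀ : modularFunctionFieldBar D.R)
    (hg₀ : g₀ ∈ (modularValSetup A D.Q D.R hq hA hqR).Ov) :
    (valSetupZero D S).red (alphaQ D g₀) =
      ((frobAut (IsLocalRing.ResidueField A) D.R D.Q)⁻¹ •
        (modularValSetup A D.Q D.R hq hA hqR).red g₀) ^ D.Q := by
  apply Subtype.ext
  rw [coe_red_zero_alphaQ D A hq hA hqR S hS g₀ hg₀, coe_frobAut_inv_smul_pow]

/-- abstract value transport: `ValAt Q ((τ⁻¹ • y) ^ q) c ↔ ValAt (τ • Q) y c` for a semilinear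
automorphism `τ` over the Frobenius of `k`. -/
theorem valAt_inv_smul_pow {k Fk : Type*} [Field k] [Field Fk] [Algebra k Fk] (q : ℕ)
    [Fact q.Prime] [CharP k q] (τ : SemilinearAut k Fk)
    (hτ : ∀ c : k, SemilinearAut.baseAut τ c = c ^ q) (Q : Place k Fk) (y : Fk) (c : k) :
    ValAt Q ((τ⁻¹ • y) ^ q) c ↔ ValAt (τ • Q) y c := by
  obtain ⟨c₀, hc₀⟩ : ∃ c₀ : k, c₀ ^ q = c :=
    ⟨(SemilinearAut.baseAut τ).symm c, by rw [← hτ, RingEquiv.apply_symm_apply]⟩
  rw [← hc₀, valAt_pow_char, valAt_iff_congAt, valAt_iff_congAt,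
    ← Fermat.Agent.S17.Pts.congAt_smul_iff τ, smul_inv_smul, hτ]

include hS in
/-- (3) VALUE TRANSPORT by the coefficientwise Frobenius (MA6a, `frobAut`). -/
theorem valAt_red_zero_alphaQ [Fact D.Q.Prime] [CharP (IsLocalRing.ResidueField A) D.Q]
    [PerfectRing (IsLocalRing.ResidueField A) D.Q]
    (g₀ : modularFunctionFieldBar D.R)
    (hg₀ : g₀ ∈ (modularValSetup A D.Q D.R hq hA hqR).Ov)
    (Q : Place (IsLocalRing.ResidueField A)
      (modularFunctionFieldFullC (IsLocalRing.ResidueField A) D.R))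
    (c : IsLocalRing.ResidueField A) :
    ValAt Q ((valSetupZero D S).red (alphaQ D g₀)) c ↔
      ValAt (frobAut (IsLocalRing.ResidueField A) D.R D.Q • Q)
        ((modularValSetup A D.Q D.R hq hA hqR).red g₀) c := by
  rw [red_zero_alphaQ_eq_pow D A hq hA hqR S hS g₀ hg₀]
  exact valAt_inv_smul_pow D.Q (frobAut (IsLocalRing.ResidueField A) D.R D.Q)
    (baseAut_frobAut_apply (IsLocalRing.ResidueField A) D.R D.Q) Q _ c

/-- (4) POLES: an old function with poles only at the cusps of `X₀(N₀)` has poles only at the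
cusps of `X₀(N)`. -/
theorem ord_alphaQ_nonneg (g₀ : modularFunctionFieldBar D.R)
    (h : ∀ v₀ : Place Qb (modularFunctionFieldBar D.R),
      0 ≤ v₀.ord (jBar D.R) → 0 ≤ v₀.ord g₀) :
    ∀ v : Place Qb (modularFunctionFieldBar (D.Q * D.R)),
      0 ≤ v.ord (jBar (D.Q * D.R)) → 0 ≤ v.ord (alphaQ D g₀) := by
  intro v hv
  haveI := finiteDimensional_adjoin_jBar D.R
  obtain ⟨Φ, hmonic, hΦ⟩ := SeedNode.exists_charpoly_poly (Fermat.Agent.RRMod.isRRField_bar D.R)
    (transcendental_jBar D.R) g₀ h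
  -- `g₀` is a root of `Φ(j, X)`
  have h2 := SeedNode.aeval_charpoly_mulLeft (L := IntermediateField.adjoin Qb {jBar D.R}) g₀
  rw [← hΦ, Polynomial.aeval_def, Polynomial.eval₂_map] at h2
  -- transport by `α`
  have hj : alphaQ D (jBar D.R) = jBar (D.Q * D.R) := by
    apply Subtype.ext
    rw [coe_alphaQ, coe_jBar, coe_jBar]
  apply Fermat.Agent.S24Res.ord_nonneg_of_mem
  letI : Algebra (Polynomial Qb) (modularFunctionFieldBar (D.Q * D.R)) :=
    (Polynomial.aeval (R := Qb) (jBar (D.Q * D.R))).toRingHom.toAlgebra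
  have halg : ∀ p : Polynomial Qb, algebraMap (Polynomial Qb)
      (modularFunctionFieldBar (D.Q * D.R)) p = Polynomial.aeval (jBar (D.Q * D.R)) p :=
    fun p => rfl
  refine Fermat.Agent.S24Bridge.mem_of_isIntegral (R := Polynomial Qb) v (fun p => ?_) ?_
  · rw [halg]
    have := Fermat.Agent.RRHur.adicValuation_aeval_le_one v
      ((Fermat.Agent.RRHur.adicValuation_le_one_iff' v).mpr hv) p
    exact Fermat.Agent.S24Res.mem_of_ord_nonneg v
      ((Fermat.Agent.RRHur.adicValuation_le_one_iff' v).mp this)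
  · refine ⟨Φ, hmonic, ?_⟩
    have h3 := congrArg (alphaQ D).toRingHom h2
    rw [map_zero, Polynomial.hom_eval₂] at h3
    have hcomp : ((alphaQ D).toRingHom.comp
        ((algebraMap (IntermediateField.adjoin Qb {jBar D.R}) (modularFunctionFieldBar D.R)).comp
          (SeedNode.toAdj (jBar D.R)))) =
        algebraMap (Polynomial Qb) (modularFunctionFieldBar (D.Q * D.R)) := by
      apply Polynomial.ringHom_ext
      · intro a
        simp [halg, SeedNode.toAdj_apply]
      · simp [halg, SeedNode.toAdj_apply, hj]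
    rw [← hcomp]
    exact h3

end Fermat.Agent.BadRed
end
end MergeWrap_Lib_BadRed_Mod_OldRed

section MergeWrap_Lib_BadRed_Final_Sep -- from Lib/BadRed/Final/Sep.lean

set_option autoImplicit false
set_option linter.style.haveILetI false
set_option linter.unusedSectionVars false
set_option linter.unusedVariables false
set_option synthInstance.maxHeartbeats 400000
set_option maxHeartbeats 1000000

/-!
# Cluster T, final wiring (helper81), part 5: old functions separate the nodes (`FwSep`)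

From MA6c (`exists_oldSep_of_aux`, helper79 / helper94), MA6b (`OldRed`, helper33), MA6a
(`frobAut`, helper18) and MA4 (`ord_jBar_neg_iff_uF`, helper16 / helper84 / helper47).
-/

noncomputable section

namespace Fermat.Agent.BadRed

open IntermediateField ModularCurve AlgebraicCurve Fermat.Agent.F3 Fermat.Agent.F3G
  Fermat.Agent.GaussInt
  Fermat.Agent.AtkinLehner Fermat.Agent.Deuring Fermat.Agent.RR Fermat.Agent.BadRed.SeedNode
  Fermat.Agent.BadRed.SeedPoles

local notation "Qb" => AlgebraicClosure ℚ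

attribute [local instance] fwFintype

variable (D : ALData) [NeZero D.Q] [NeZero D.R] [NeZero (D.Q * D.R)]
  (A : ValuationSubring Qb) (hq : D.Q.Prime) (hA : A.LiesOverPrime D.Q) (hqR : ¬ D.Q ∣ D.R)
  (S : ValSetup Qb (modularFunctionFieldBar (D.Q * D.R)) (IsLocalRing.ResidueField A)
    (modularFunctionFieldFullC (IsLocalRing.ResidueField A) D.R))
  (hS : IsGaussSetup (D.Q * D.R) D.R A S) (hL : HasLattice S)
  [Fact D.Q.Prime] [CharP (IsLocalRing.ResidueField A) D.Q]
  [PerfectRing (IsLocalRing.ResidueField A) D.Q]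

include hS hq hA hqR in
/-- **old functions separate the nodes.** -/
theorem fw_sep (haux : AuxLevelOK D.Q D.R) : FwSep D A S := by
  classical
  intro i j hij
  have hh := fw_coe_red_uF D A hq hA S hS
  have hreg : ∀ l : fwIota D A S,
      0 ≤ l.1.ord (Fermat.Agent.RRMod.jC (IsLocalRing.ResidueField A) D.R) := fun l =>
    (ord_ss_nonneg_iff D.R hq hA _ hh l.1).mp l.2.le
  obtain ⟨g₀, hg₀, hpole, -, hval⟩ := exists_oldSep_of_aux D.R hq hqR haux hA
    (Subtype.val : fwIota D A S → _) Subtype.val_injective hreg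
    (fun l => if l = i then (1 : IsLocalRing.ResidueField A) else 0)
  refine ⟨alphaQ D g₀, fun l => if l = i then (1 : IsLocalRing.ResidueField A) else 0,
    ⟨alphaQ_mem_Ov D A hq hA hqR S hS g₀ hg₀, alphaQ_mem_Ov_zero D A hq hA hqR S hS g₀ hg₀,
      ?_, ?_, ?_⟩, ?_⟩
  · intro v hv
    apply ord_alphaQ_nonneg D g₀ hpole v
    by_contra h
    exact (ord_jBar_neg_iff_uF hq (Dvd.intro _ rfl) v).mp (not_le.mp h) hv
  · intro l
    rw [red_alphaQ D A hq hA hqR S hS g₀ hg₀]
    exact hval l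
  · intro l
    rw [valAt_red_zero_alphaQ D A hq hA hqR S hS g₀ hg₀, smul_inv_smul]
    exact hval l
  · simp only [if_true, if_neg (Ne.symm hij)]
    exact one_ne_zero

end Fermat.Agent.BadRed
end
end MergeWrap_Lib_BadRed_Final_Sep
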